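import Fermat.Agent.S29.M4b.Defs

/-!
# S29 / M4b, piece `K4-ADD` (helper572): the Kummer relation is additive

`IsKum c x → IsKum c' x' → IsKum (c + c') (x + x')`: multiply the data `(f, t, U)`.
-/

set_option autoImplicit false

noncomputable section

open ModularCurve AlgebraicCurve CongruenceSubgroup UpperHalfPlane
open scoped MatrixGroups Manifold

namespace Fermat.Agent.S29.H572

open Fermat.Agent.S24 Fermat.Agent.S29 Fermat.Agent.S29.M4b

/-- `ζ_p ^ p = 1`. -/
theorem zetaP_pow_self (p : ℕ) [NeZero p] : zetaP p ^ p = 1 := by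
  unfold zetaP
  rw [← Complex.exp_nat_mul]
  have hp : (p : ℂ) ≠ 0 := Nat.cast_ne_zero.mpr (NeZero.ne p)
  rw [mul_div_cancel₀ _ hp]
  exact Complex.exp_two_pi_mul_I

/-- `ζ_p ^ n` only depends on `n` mod `p`. -/
theorem zetaP_pow_mod (p : ℕ) [NeZero p] (n : ℕ) : zetaP p ^ (n % p) = zetaP p ^ n := by
  conv_rhs => rw [← Nat.div_add_mod n p, pow_add, pow_mul, zetaP_pow_self, one_pow, one_mul]

/-- `ζ_p ^ (a + b).val = ζ_p ^ a.val * ζ_p ^ b.val`. -/
theorem zetaP_pow_val_add (p : ℕ) [NeZero p] (a b : ZMod p) :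
    zetaP p ^ (a + b).val = zetaP p ^ a.val * zetaP p ^ b.val := by
  rw [ZMod.val_add, zetaP_pow_mod, pow_add]

/-- Characters multiply. -/
theorem hasChar_mul {N p : ℕ} [NeZero p] {c c' : G0 N → ZMod p} {U U' : ℍ → ℂ}
    (h : HasChar N p c U) (h' : HasChar N p c' U') :
    HasChar N p (c + c') (fun τ => U τ * U' τ) := by
  intro γ τ
  show U (_ • τ) * U' (_ • τ) = zetaP p ^ (c γ + c' γ).val * (U τ * U' τ)
  rw [h γ τ, h' γ τ, zetaP_pow_val_add]
  ring

variable (N : ℕ) [NeZero N] (p : ℕ) [NeZero p]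

/-- A function realising a nonzero element of `FF N` is not identically zero. -/
theorem ne_zero_of_realises {u : FF N} (hu : u ≠ 0) {G : ℍ → ℂ} (hG : Realises N u G) :
    G ≠ 0 := by
  intro h0
  have h1 : H708.qexpFun 1 G = 0 := by
    rw [h0]
    exact (H708.qexpFun_eq_zero_iff (H708.IsMerInf.zero 1)).mpr rfl
  rw [hG.2] at h1
  have h2 : ((u : FF N) : LaurentSeries Kbar) = 0 := by
    have hinj : Function.Injective (coeffMap (Deg457.iotaC : Kbar →+* ℂ)) :=
      RingHom.injective _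
    exact hinj (by rw [h1, map_zero])
  exact hu (Subtype.ext h2)

/-- Realisations multiply. -/
theorem realises_mul {u u' : FF N} {G G' : ℍ → ℂ} (h : Realises N u G) (h' : Realises N u' G') :
    Realises N (u * u') (G * G') := by
  refine ⟨(H648.goodRing N).mul_mem h.1 h'.1, ?_⟩
  rw [H708.qexpFun_mul (H882.isMerInf_of_mem_goodRing h.1) (H882.isMerInf_of_mem_goodRing h'.1),
    h.2, h'.2]
  show _ = coeffMap Deg457.iotaC (((u : FF N) : LaurentSeries Kbar) * ((u' : FF N) : LaurentSeries Kbar))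
  rw [map_mul]

/-- PIECE `K4-ADD`: additivity of the Kummer relation (product of the data). -/
theorem isKum_add {c c' : G0 N → ZMod p} {x x' : JZero N}
    (h : IsKum N p c x) (h' : IsKum N p c' x') : IsKum N p (c + c') (x + x') := by
  obtain ⟨f, t, U, ht, hx, hU, hR⟩ := h
  obtain ⟨f', t', U', ht', hx', hU', hR'⟩ := h'
  have hfun : (fun τ => (U τ * U' τ) ^ p) = (fun τ => U τ ^ p) * (fun τ => U' τ ^ p) := by
    funext τ
    exact mul_pow _ _ _
  have hRR : Realises N (f * f' * (t * t') ^ p) (fun τ => (U τ * U' τ) ^ p) := by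
    rw [hfun]
    have := realises_mul N hR hR'
    have he : f * t ^ p * (f' * t' ^ p) = f * f' * (t * t') ^ p := by ring
    rwa [he] at this
  refine ⟨f * f', t * t', fun τ => U τ * U' τ, mul_ne_zero ht ht', hx.add hx', ?_, hRR⟩
  refine ⟨hU.mdiff.mul hU'.mdiff, ?_, hasChar_mul hU.hasChar hU'.hasChar, hRR.1⟩
  -- not identically zero
  have hne : f * f' * (t * t') ^ p ≠ 0 :=
    mul_ne_zero (mul_ne_zero hx.ne_zero hx'.ne_zero) (pow_ne_zero _ (mul_ne_zero ht ht'))
  have hG := ne_zero_of_realises N hne hRR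
  by_contra hall
  have hall : ∀ τ, U τ * U' τ = 0 := fun τ => by
    by_contra hτ
    exact hall ⟨τ, hτ⟩
  apply hG
  funext τ
  show (U τ * U' τ) ^ p = 0
  rw [hall τ]
  exact zero_pow (NeZero.ne p)

end Fermat.Agent.S29.H572
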